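import Fermat.Agent.ErdosKac.Mertens
import Mathlib.Analysis.Complex.Exponential
import Mathlib.Algebra.Order.Chebyshev

/-!
# Tools for Delange's theorem

Comparisons of products in the closed unit disc, a Turán-Kubilius variance bound, and the bound
on `∑ 1 / p` over `(√x, x]`.
-/

set_option autoImplicit false

noncomputable section

namespace FA.Delange

open Finset Complex
open FA.ErdosKac (primesUpTo mem_primesUpTo recipSum)

theorem norm_prod_sub_prod_le {ι : Type*} (s : Finset ι) (u v : ι → ℂ)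
    (hu : ∀ i ∈ s, ‖u i‖ ≤ 1) (hv : ∀ i ∈ s, ‖v i‖ ≤ 1) :
    ‖∏ i ∈ s, u i - ∏ i ∈ s, v i‖ ≤ ∑ i ∈ s, ‖u i - v i‖ := by
  classical
  induction s using Finset.induction_on with
  | empty => simp
  | insert a s ha ih =>
    rw [prod_insert ha, prod_insert ha, sum_insert ha]
    simp only [mem_insert, forall_eq_or_imp] at hu hv
    have hpu : ‖∏ i ∈ s, u i‖ ≤ 1 := by
      rw [norm_prod]
      exact prod_le_one (fun i _ => norm_nonneg _) hu.2
    calc ‖u a * ∏ i ∈ s, u i - v a * ∏ i ∈ s, v i‖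
        = ‖(u a - v a) * ∏ i ∈ s, u i + v a * (∏ i ∈ s, u i - ∏ i ∈ s, v i)‖ := by ring_nf
      _ ≤ ‖u a - v a‖ * ‖∏ i ∈ s, u i‖ + ‖v a‖ * ‖∏ i ∈ s, u i - ∏ i ∈ s, v i‖ := by
          refine (norm_add_le _ _).trans_eq ?_
          rw [norm_mul, norm_mul]
      _ ≤ _ := add_le_add (mul_le_of_le_one_right (norm_nonneg _) hpu)
          ((mul_le_of_le_one_left (norm_nonneg _) hv.1).trans (ih hu.2 hv.2))

theorem re_sub_one_nonpos {z : ℂ} (hz : ‖z‖ ≤ 1) : (z - 1).re ≤ 0 := by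
  have := re_le_norm z
  simp only [sub_re, one_re]
  linarith

theorem norm_exp_le_one {g : ℂ} (hg : g.re ≤ 0) : ‖exp g‖ ≤ 1 := by
  rw [norm_exp]
  exact Real.exp_le_one_iff.2 hg

theorem norm_exp_sub_one_le_two_mul {g : ℂ} (hg : g.re ≤ 0) : ‖exp g - 1‖ ≤ 2 * ‖g‖ := by
  rcases le_or_gt ‖g‖ 1 with h | h
  · exact norm_exp_sub_one_le h
  · have := norm_sub_le (exp g) 1
    rw [norm_one] at this
    linarith [norm_exp_le_one hg]

theorem norm_exp_sub_exp_le {a b : ℂ} (ha : a.re ≤ 0) (hb : b.re ≤ 0) :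
    ‖exp a - exp b‖ ≤ 2 * ‖a - b‖ := by
  wlog h : b.re ≤ a.re generalizing a b
  · rw [norm_sub_rev, norm_sub_rev a]
    exact this hb ha (le_of_not_ge h)
  rw [show exp a - exp b = -(exp a * (exp (b - a) - 1)) by
    rw [mul_sub, ← exp_add, add_sub_cancel]; ring, norm_neg, norm_mul, norm_sub_rev a]
  exact (mul_le_of_le_one_left (norm_nonneg _) (norm_exp_le_one ha)).trans
    (norm_exp_sub_one_le_two_mul (by rw [sub_re]; linarith))

theorem norm_sub_exp_le {z : ℂ} (hz : ‖z‖ ≤ 1) : ‖z - exp (z - 1)‖ ≤ 2 * ‖z - 1‖ ^ 2 := by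
  rcases le_or_gt ‖z - 1‖ 1 with h | h
  · have := norm_exp_sub_one_sub_id_le h
    rw [show exp (z - 1) - 1 - (z - 1) = -(z - exp (z - 1)) by ring, norm_neg] at this
    nlinarith [sq_nonneg ‖z - 1‖]
  · have := norm_sub_le z (exp (z - 1))
    have := norm_exp_le_one (re_sub_one_nonpos hz)
    nlinarith

theorem sq_norm_sub_one_le {z : ℂ} (hz : ‖z‖ ≤ 1) : ‖z - 1‖ ^ 2 ≤ 2 * (1 - z.re) := by
  have h1 : ‖z‖ ^ 2 ≤ 1 := pow_le_one₀ (norm_nonneg z) hz
  rw [Complex.sq_norm, normSq_apply] at h1 ⊢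
  simp only [sub_re, one_re, sub_im, one_im, sub_zero]
  nlinarith

/-- `(n in [1, x] divisible by d)`. -/
theorem card_filter_dvd (x d : ℕ) : ((Icc 1 x).filter (d ∣ ·)).card = x / d := by
  rw [← Nat.Ioc_filter_dvd_card_eq_div, ← Icc_add_one_left_eq_Ioc, zero_add]

theorem abs_div_sub_le (x d : ℕ) : |((x / d : ℕ) : ℝ) - x / d| ≤ 1 := by
  rcases Nat.eq_zero_or_pos d with rfl | hd
  · simp
  rw [abs_le]
  refine ⟨?_, by linarith [Nat.cast_div_le (m := x) (n := d) (α := ℝ)]⟩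
  have h : (x : ℝ) ≤ d * ((x / d : ℕ) + 1) := by
    exact_mod_cast (Nat.lt_mul_div_succ x hd).le
  rw [neg_le_sub_iff_le_add, div_le_iff₀ (by exact_mod_cast hd)]
  linarith

/-- The correlation of the centred indicators of divisibility by two primes. -/
theorem abs_corr_le {p q : ℕ} (hp : p.Prime) (hq : q.Prime) (x : ℕ) :
    |∑ n ∈ Icc 1 x, ((if p ∣ n then 1 else 0) - (p : ℝ)⁻¹) *
        ((if q ∣ n then 1 else 0) - (q : ℝ)⁻¹)| ≤
      (if p = q then 2 * (x : ℝ) / p else 0) + 3 := by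
  have hp0 : (0 : ℝ) < (p : ℝ)⁻¹ := by have := hp.pos; positivity
  have hq0 : (0 : ℝ) < (q : ℝ)⁻¹ := by have := hq.pos; positivity
  have hp1 : (p : ℝ)⁻¹ ≤ 1 := inv_le_one_of_one_le₀ (by exact_mod_cast hp.one_le)
  have hq1 : (q : ℝ)⁻¹ ≤ 1 := inv_le_one_of_one_le₀ (by exact_mod_cast hq.one_le)
  have e : ∀ n : ℕ, ((if p ∣ n then 1 else 0) - (p : ℝ)⁻¹) *
      ((if q ∣ n then 1 else 0) - (q : ℝ)⁻¹) = (if Nat.lcm p q ∣ n then 1 else 0) -
        (q : ℝ)⁻¹ * (if p ∣ n then 1 else 0) - (p : ℝ)⁻¹ * (if q ∣ n then 1 else 0) +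
          (p : ℝ)⁻¹ * (q : ℝ)⁻¹ := by
    intro n
    have h : (if Nat.lcm p q ∣ n then (1 : ℝ) else 0) =
        (if p ∣ n then 1 else 0) * (if q ∣ n then 1 else 0) := by
      by_cases h1 : p ∣ n <;> by_cases h2 : q ∣ n <;> simp [Nat.lcm_dvd_iff, h1, h2]
    rw [h]
    ring
  simp only [e, sum_add_distrib, sum_sub_distrib, ← mul_sum, sum_boole, card_filter_dvd,
    sum_const, Nat.card_Icc, Nat.add_sub_cancel, nsmul_eq_mul]
  have hP := abs_le.1 (abs_div_sub_le x p)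
  have hQ := abs_le.1 (abs_div_sub_le x q)
  have hL := abs_le.1 (abs_div_sub_le x (Nat.lcm p q))
  rw [div_eq_mul_inv] at hP hQ hL
  split_ifs with hpq
  · subst hpq
    rw [Nat.lcm_self] at hL ⊢
    rw [abs_le, div_eq_mul_inv]
    constructor <;> nlinarith [mul_le_mul_of_nonneg_left hp1 (mul_nonneg x.cast_nonneg hp0.le)]
  · rw [((Nat.coprime_primes hp hq).2 hpq).lcm_eq_mul] at hL ⊢
    rw [Nat.cast_mul, mul_inv] at hL
    rw [zero_add, abs_le]
    constructor <;> nlinarith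

/-- **The Turán-Kubilius inequality** for weights on primes at most `√x`. -/
theorem turan_kubilius (u : ℕ → ℂ) {x R : ℕ} (hR : R * R ≤ x) {P : Finset ℕ}
    (hP : ∀ p ∈ P, p.Prime ∧ p ≤ R) :
    ∑ n ∈ Icc 1 x, ‖∑ p ∈ P, (if p ∣ n then u p else 0) - ∑ p ∈ P, u p / p‖ ^ 2 ≤
      5 * x * ∑ p ∈ P, ‖u p‖ ^ 2 / p := by
  set c : ℕ → ℕ → ℝ := fun p n => (if p ∣ n then 1 else 0) - (p : ℝ)⁻¹ with hc
  have e1 : ∀ n, ∑ p ∈ P, (if p ∣ n then u p else 0) - ∑ p ∈ P, u p / p =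
      ∑ p ∈ P, u p * (c p n : ℂ) := by
    intro n
    rw [← sum_sub_distrib]
    refine sum_congr rfl fun p _ => ?_
    simp only [hc]
    split_ifs <;> push_cast <;> ring
  have e2 : ∀ n, ‖∑ p ∈ P, u p * (c p n : ℂ)‖ ^ 2 =
      ∑ p ∈ P, ∑ q ∈ P, (u p * starRingEnd ℂ (u q)).re * (c p n * c q n) := by
    intro n
    set z := ∑ p ∈ P, u p * (c p n : ℂ) with hz
    have : ((‖z‖ ^ 2 : ℝ) : ℂ) = z * starRingEnd ℂ z := by
      rw [Complex.mul_conj, Complex.sq_norm]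
    rw [← Complex.ofReal_re (‖z‖ ^ 2), this, hz, map_sum, sum_mul_sum, re_sum]
    refine sum_congr rfl fun p _ => ?_
    rw [re_sum]
    refine sum_congr rfl fun q _ => ?_
    rw [map_mul, conj_ofReal, mul_mul_mul_comm, ← ofReal_mul, re_mul_ofReal]
  simp only [e1, e2]
  rw [sum_comm]
  calc ∑ p ∈ P, ∑ n ∈ Icc 1 x, ∑ q ∈ P, (u p * starRingEnd ℂ (u q)).re * (c p n * c q n)
      = ∑ p ∈ P, ∑ q ∈ P, (u p * starRingEnd ℂ (u q)).re * ∑ n ∈ Icc 1 x, c p n * c q n := by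
        refine sum_congr rfl fun p _ => ?_
        rw [sum_comm]
        simp only [mul_sum]
    _ ≤ ∑ p ∈ P, ∑ q ∈ P, ‖u p‖ * ‖u q‖ * ((if p = q then 2 * (x : ℝ) / p else 0) + 3) := by
        refine sum_le_sum fun p hp => sum_le_sum fun q hq => (le_abs_self _).trans ?_
        rw [abs_mul]
        refine mul_le_mul ((abs_re_le_norm _).trans_eq ?_)
          (abs_corr_le (hP p hp).1 (hP q hq).1 x) (abs_nonneg _) (by positivity)
        rw [norm_mul, RCLike.norm_conj]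
    _ = 2 * x * (∑ p ∈ P, ‖u p‖ ^ 2 / p) + 3 * (∑ p ∈ P, ‖u p‖) ^ 2 := by
        simp only [mul_add, sum_add_distrib, mul_ite, mul_zero, sum_ite_eq]
        refine congrArg₂ (· + ·) ?_ ?_
        · rw [mul_sum]
          refine sum_congr rfl fun p hp => ?_
          rw [if_pos hp]
          ring
        · simp only [← sum_mul, ← mul_sum]
          ring
    _ ≤ _ := by
        have hcs : (∑ p ∈ P, ‖u p‖) ^ 2 ≤ (∑ p ∈ P, ‖u p‖ ^ 2 / p) * ∑ p ∈ P, (p : ℝ) := by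
          refine sum_sq_le_sum_mul_sum_of_sq_le_mul P (fun p _ => by positivity)
            (fun p _ => Nat.cast_nonneg p) fun p hp => le_of_eq ?_
          have := (hP p hp).1.ne_zero
          field_simp
        have hsum : ∑ p ∈ P, (p : ℝ) ≤ x := by
          have h1 : ∑ p ∈ P, p ≤ R * R := by
            refine (sum_le_card_nsmul _ _ R fun p hp => (hP p hp).2).trans ?_
            refine Nat.mul_le_mul_right R ?_
            refine (card_le_card (t := Icc 1 R) fun p hp => ?_).trans (by simp)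
            exact mem_Icc.2 ⟨(hP p hp).1.one_le, (hP p hp).2⟩
          rw [← Nat.cast_sum]
          exact Nat.cast_le.2 (h1.trans hR)
        have h0 : 0 ≤ ∑ p ∈ P, ‖u p‖ ^ 2 / p := sum_nonneg fun p _ => by positivity
        nlinarith [mul_le_mul_of_nonneg_left hsum h0]

/-- `∑_{√x < p ≤ x} 1 / p` is bounded. -/
theorem exists_recip_upper_le : ∃ C : ℝ, 0 ≤ C ∧ ∀ x : ℕ, 4 ≤ x →
    ∑ p ∈ (primesUpTo x).filter (Nat.sqrt x < ·), (p : ℝ)⁻¹ ≤ C := by
  obtain ⟨C, hC⟩ := FA.ErdosKac.exists_abs_recipSum_sub_le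
  have hC0 : 0 ≤ C := (abs_nonneg _).trans (hC 2 le_rfl)
  have h4 : 0 ≤ Real.log 4 := Real.log_nonneg (by norm_num)
  refine ⟨2 * C + Real.log 4, by positivity, fun x hx => ?_⟩
  set R := Nat.sqrt x with hR
  have hR2 : 2 ≤ R := Nat.le_sqrt.2 (by omega)
  have hRx : R ≤ x := Nat.sqrt_le_self x
  have e : ∑ p ∈ (primesUpTo x).filter (R < ·), (p : ℝ)⁻¹ = recipSum x - recipSum R := by
    rw [eq_sub_iff_add_eq, recipSum, recipSum,
      ← sum_filter_add_sum_filter_not (primesUpTo x) (R < ·)]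
    refine congrArg₂ (· + ·) rfl (sum_congr ?_ fun _ _ => rfl)
    ext p
    simp only [mem_primesUpTo, mem_filter, not_lt]
    exact ⟨fun h => ⟨⟨h.1, h.2.trans hRx⟩, h.2⟩, fun h => ⟨h.1.1, h.2⟩⟩
  rw [e]
  have h1 := abs_le.1 (hC x (by omega))
  have h2 := abs_le.1 (hC R hR2)
  have hlR : 0 < Real.log R := Real.log_pos (by exact_mod_cast hR2)
  have h3 : Real.log (Real.log x) ≤ Real.log 4 + Real.log (Real.log R) := by
    rw [← Real.log_mul (by norm_num) hlR.ne']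
    refine Real.log_le_log (Real.log_pos (by exact_mod_cast (by omega : 1 < x))) ?_
    have hlt : x ≤ R ^ 4 := by
      have h5 := Nat.lt_succ_sqrt x
      rw [← hR] at h5
      calc x ≤ (R + 1) * (R + 1) := h5.le
        _ ≤ (R * R) * (R * R) := by
            have : R + 1 ≤ R * R := by nlinarith
            exact Nat.mul_le_mul this this
        _ = R ^ 4 := by ring
    rw [show (4 : ℝ) * Real.log R = Real.log ((R : ℝ) ^ 4) by rw [Real.log_pow]; norm_num]
    exact Real.log_le_log (by exact_mod_cast (by omega : 0 < x)) (by exact_mod_cast hlt)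
  linarith

end FA.Delange
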