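import Fermat.Agent.Delange.Truncation
import Mathlib.Analysis.PSeries
import Mathlib.Topology.UniformSpace.Cauchy

/-!
# Delange's theorem

If `∑ₚ (1 - f p) / p` converges, `f` differs in mean by little from its truncations: the primes
above `√x` are few, and on the others `∑_{p ∣ n} (f p - 1)` is concentrated around its mean.
-/

set_option autoImplicit false

noncomputable section

namespace FA.Delange

open Finset Filter Topology
open FA.ErdosKac (primesUpTo mem_primesUpTo)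

variable {f : ℕ → ℂ}

/-- The primes in `(y, x]`. -/
def primesIoc (y x : ℕ) : Finset ℕ := (primesUpTo x).filter (y < ·)

theorem mem_primesIoc {y x p : ℕ} : p ∈ primesIoc y x ↔ p.Prime ∧ y < p ∧ p ≤ x := by
  rw [primesIoc, mem_filter, mem_primesUpTo]
  tauto

/-- `∑ ‖f p - 1‖ ² / p` over `(y, x]`. -/
def sqSum (f : ℕ → ℂ) (y x : ℕ) : ℝ := ∑ p ∈ primesIoc y x, ‖f p - 1‖ ^ 2 / p

theorem sum_filter_dvd_le {P : Finset ℕ} {w : ℕ → ℝ} (d : ℕ → ℕ) (hw : ∀ p ∈ P, 0 ≤ w p)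
    (x : ℕ) : ∑ n ∈ Icc 1 x, ∑ p ∈ P, (if d p ∣ n then w p else 0) ≤
      x * ∑ p ∈ P, w p / d p := by
  rw [sum_comm, mul_sum]
  refine sum_le_sum fun p hp => ?_
  rw [← sum_filter, sum_const, card_filter_dvd, nsmul_eq_mul]
  refine (mul_le_mul_of_nonneg_right Nat.cast_div_le (hw p hp)).trans_eq ?_
  ring

/-- The pointwise comparison of `f` with its truncation. -/
theorem norm_sub_trunc_mul_exp_le (h1 : f 1 = 1)
    (hmul : ∀ m n : ℕ, m.Coprime n → f (m * n) = f m * f n)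
    (hf : ∀ n, ‖f n‖ ≤ 1) {y R x n : ℕ} (hR : x < (R + 1) * (R + 1))
    (hn1 : 1 ≤ n) (hnx : n ≤ x) {E : ℂ} (hE : E.re ≤ 0) :
    ‖f n - trunc f y n * Complex.exp E‖ ≤
      2 * ‖∑ p ∈ primesIoc y R, (if p ∣ n then f p - 1 else 0) - E‖ +
        ∑ p ∈ primesIoc y R, (if p ∣ n then 2 * ‖f p - 1‖ ^ 2 else 0) +
        ∑ p ∈ primesIoc y R, (if p ^ 2 ∣ n then (2 : ℝ) else 0) +
        ∑ p ∈ primesIoc R x, (if p ∣ n then ‖f p - 1‖ else 0) := by
  have hn : n ≠ 0 := by omega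
  set P := n.primeFactors with hP
  set v := n.factorization with hv
  have hfac : f n = ∏ p ∈ P, f (p ^ v p) := by
    rw [Nat.multiplicative_factorization f hmul h1 hn, Finsupp.prod, Nat.support_factorization]
  have htr : trunc f y n = ∏ p ∈ P, if p ≤ y then f (p ^ v p) else 1 := by
    rw [trunc, Finsupp.prod, Nat.support_factorization]
  set c : ℕ → ℂ := fun p =>
    if p ≤ y then f (p ^ v p) else if p ≤ R then Complex.exp (f p - 1) else 1 with hc
  set g := ∑ p ∈ primesIoc y R, (if p ∣ n then f p - 1 else 0) with hg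
  have hmid : (primesIoc y R).filter (· ∣ n) = P.filter fun p => y < p ∧ p ≤ R := by
    ext p
    simp only [mem_filter, mem_primesIoc, hP, Nat.mem_primeFactors]
    exact ⟨fun h => ⟨⟨h.1.1, h.2, hn⟩, h.1.2⟩, fun h => ⟨⟨h.1.1, h.2⟩, h.1.2.1⟩⟩
  have hprod : ∏ p ∈ P, c p = trunc f y n * Complex.exp g := by
    rw [htr, hg, ← sum_filter, hmid, Complex.exp_sum, prod_filter, ← prod_mul_distrib]
    refine prod_congr rfl fun p _ => ?_
    simp only [hc]
    split_ifs <;> first | omega | simp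
  have hc1 : ∀ p ∈ P, ‖c p‖ ≤ 1 := by
    intro p _
    simp only [hc]
    split_ifs
    exacts [hf _, norm_exp_le_one (re_sub_one_nonpos (hf p)), norm_one.le]
  have hgre : g.re ≤ 0 := by
    rw [hg, Complex.re_sum]
    refine sum_nonpos fun p _ => ?_
    split_ifs
    exacts [re_sub_one_nonpos (hf p), le_rfl]
  have hsecond : ‖∏ p ∈ P, c p - trunc f y n * Complex.exp E‖ ≤ 2 * ‖g - E‖ := by
    rw [hprod, ← mul_sub, norm_mul]
    refine (mul_le_of_le_one_left (norm_nonneg _) ?_).trans (norm_exp_sub_exp_le hgre hE)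
    rw [htr, norm_prod]
    refine prod_le_one (fun _ _ => norm_nonneg _) fun p _ => ?_
    split_ifs
    exacts [hf _, norm_one.le]
  set φ : ℕ → ℝ := fun p => ‖f (p ^ v p) - c p‖ with hφ
  have hterm : ∀ p ∈ P, φ p ≤
      (if y < p ∧ p ≤ R then 2 * ‖f p - 1‖ ^ 2 + (if p ^ 2 ∣ n then 2 else 0) else 0) +
        (if R < p then ‖f p - 1‖ else 0) := by
    intro p hp
    have hp' := Nat.mem_primeFactors.1 hp
    have hv1 : 1 ≤ v p := hp'.1.factorization_pos_of_dvd hn hp'.2.1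
    have hone : ¬p ^ 2 ∣ n → v p = 1 := fun h => by
      by_contra hne
      exact h ((pow_dvd_pow p (by omega : 2 ≤ v p)).trans (Nat.ordProj_dvd n p))
    simp only [hφ, hc]
    rcases le_or_gt p y with h | h
    · rw [if_pos h, sub_self, norm_zero]
      positivity
    rw [if_neg (show ¬p ≤ y by omega)]
    rcases le_or_gt p R with h' | h'
    · rw [if_pos h', if_pos ⟨h, h'⟩, if_neg (show ¬R < p by omega), add_zero]
      by_cases hsq : p ^ 2 ∣ n
      · rw [if_pos hsq]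
        refine (norm_sub_le _ _).trans ?_
        have := norm_exp_le_one (re_sub_one_nonpos (hf p))
        nlinarith [hf (p ^ v p)]
      · rw [if_neg hsq, hone hsq, pow_one, add_zero]
        exact norm_sub_exp_le (hf p)
    · rw [if_neg (show ¬p ≤ R by omega), if_neg (show ¬(y < p ∧ p ≤ R) by omega), if_pos h',
        zero_add]
      have hsq : ¬p ^ 2 ∣ n := fun hd => by
        have h2 := Nat.le_of_dvd hn1 hd
        have h3 : (R + 1) * (R + 1) ≤ p ^ 2 := by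
          rw [pow_two]
          exact Nat.mul_le_mul h' h'
        omega
      rw [hone hsq, pow_one]
  have hfirst : ‖f n - ∏ p ∈ P, c p‖ ≤
      ∑ p ∈ primesIoc y R, (if p ∣ n then 2 * ‖f p - 1‖ ^ 2 else 0) +
        ∑ p ∈ primesIoc y R, (if p ^ 2 ∣ n then (2 : ℝ) else 0) +
        ∑ p ∈ primesIoc R x, (if p ∣ n then ‖f p - 1‖ else 0) := by
    rw [hfac]
    refine (norm_prod_sub_prod_le P _ c (fun p _ => hf _) hc1).trans ((sum_le_sum hterm).trans ?_)
    rw [sum_add_distrib, ← sum_filter, ← sum_filter (p := fun p => R < p), ← hmid,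
      sum_add_distrib, sum_filter, sum_filter (p := fun p => p ∣ n)]
    refine add_le_add (add_le_add le_rfl (le_of_eq ?_)) (le_of_eq ?_)
    · refine sum_congr rfl fun p _ => ?_
      by_cases h : p ∣ n
      · rw [if_pos h]
      · rw [if_neg h, if_neg fun h2 => h ((dvd_pow_self p two_ne_zero).trans h2)]
    · rw [← sum_filter (p := fun p => p ∣ n)]
      refine sum_congr ?_ fun _ _ => rfl
      ext p
      simp only [mem_filter, mem_primesIoc, hP, Nat.mem_primeFactors]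
      exact ⟨fun h => ⟨⟨h.1.1, h.2, (Nat.le_of_dvd hn1 h.1.2.1).trans hnx⟩, h.1.2.1⟩,
        fun h => ⟨⟨h.1.1, h.2, hn⟩, h.1.2.1⟩⟩
  have := norm_sub_le_norm_sub_add_norm_sub (f n) (∏ p ∈ P, c p) (trunc f y n * Complex.exp E)
  linarith

theorem re_sum_div_nonpos (hf : ∀ n, ‖f n‖ ≤ 1) (P : Finset ℕ) :
    (∑ p ∈ P, (f p - 1) / (p : ℂ)).re ≤ 0 := by
  rw [Complex.re_sum]
  refine sum_nonpos fun p _ => ?_
  rw [Complex.div_natCast_re]
  exact div_nonpos_of_nonpos_of_nonneg (re_sub_one_nonpos (hf p)) (Nat.cast_nonneg p)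

theorem norm_trunc_le (hf : ∀ n, ‖f n‖ ≤ 1) (y n : ℕ) : ‖trunc f y n‖ ≤ 1 := by
  rw [trunc, Finsupp.prod, norm_prod]
  refine prod_le_one (fun _ _ => norm_nonneg _) fun p _ => ?_
  split_ifs
  exacts [hf _, norm_one.le]

/-- The average distance between `f` and its centred truncation. -/
theorem sum_norm_sub_trunc_mul_exp_le (h1 : f 1 = 1)
    (hmul : ∀ m n : ℕ, m.Coprime n → f (m * n) = f m * f n) (hf : ∀ n, ‖f n‖ ≤ 1) {C : ℝ}
    (hC : ∀ x : ℕ, 4 ≤ x → ∑ p ∈ (primesUpTo x).filter (Nat.sqrt x < ·), (p : ℝ)⁻¹ ≤ C)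
    {δ : ℝ} (hδ : 0 < δ) {y x : ℕ} (hx : 4 ≤ x) (hy : y ≤ Nat.sqrt x) :
    ∑ n ∈ Icc 1 x, ‖f n - trunc f y n *
        Complex.exp (∑ p ∈ primesIoc y (Nat.sqrt x), (f p - 1) / p)‖ ≤
      x * (δ * (1 + C) +
        (6 / δ + 2) * sqSum f y x + 2 * ∑ p ∈ primesIoc y x, ((p : ℝ) ^ 2)⁻¹) := by
  set R := Nat.sqrt x with hRdef
  set E := ∑ p ∈ primesIoc y R, (f p - 1) / (p : ℂ) with hE
  have hRx : R ≤ x := Nat.sqrt_le_self x
  have hsub : primesIoc y R ⊆ primesIoc y x := fun p hp => by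
    rw [mem_primesIoc] at hp ⊢
    exact ⟨hp.1, hp.2.1, hp.2.2.trans hRx⟩
  have hsub' : primesIoc R x ⊆ primesIoc y x := fun p hp => by
    rw [mem_primesIoc] at hp ⊢
    exact ⟨hp.1, by omega, hp.2.2⟩
  have hD0 : sqSum f y R ≤ sqSum f y x :=
    sum_le_sum_of_subset_of_nonneg hsub fun p _ _ => by positivity
  have hD1 : sqSum f R x ≤ sqSum f y x :=
    sum_le_sum_of_subset_of_nonneg hsub' fun p _ _ => by positivity
  have hDpos : 0 ≤ sqSum f y x := sum_nonneg fun p _ => by positivity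
  have hx0 : (0 : ℝ) ≤ x := Nat.cast_nonneg x
  have hT1 : ∑ n ∈ Icc 1 x,
      ‖∑ p ∈ primesIoc y R, (if p ∣ n then f p - 1 else 0) - E‖ ≤
      x * (δ / 2 + 5 * sqSum f y x / (2 * δ)) := by
    have hv := turan_kubilius (fun p => f p - 1) (Nat.sqrt_le x) (P := primesIoc y R)
      fun p hp => ⟨(mem_primesIoc.1 hp).1, (mem_primesIoc.1 hp).2.2⟩
    rw [← hE] at hv
    have hp : ∀ n ∈ Icc 1 x, ‖∑ p ∈ primesIoc y R, (if p ∣ n then f p - 1 else 0) - E‖ ≤
        δ / 2 +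
          ‖∑ p ∈ primesIoc y R, (if p ∣ n then f p - 1 else 0) - E‖ ^ 2 / (2 * δ) := by
      intro n _
      set G := ∑ p ∈ primesIoc y R, (if p ∣ n then f p - 1 else 0)
      rw [← sub_nonneg]
      refine le_of_le_of_eq (show (0 : ℝ) ≤ (‖G - E‖ - δ) ^ 2 / (2 * δ) by positivity) ?_
      field_simp
      ring
    refine (sum_le_sum hp).trans ?_
    rw [sum_add_distrib, sum_const, Nat.card_Icc, Nat.add_sub_cancel, nsmul_eq_mul, ← sum_div,
      mul_add (x : ℝ) (δ / 2) (5 * sqSum f y x / (2 * δ))]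
    refine add_le_add le_rfl ?_
    rw [← mul_div_assoc]
    refine div_le_div_of_nonneg_right ?_ (by positivity)
    refine hv.trans ?_
    have h5 := mul_le_mul_of_nonneg_left hD0 hx0
    unfold sqSum at h5 ⊢
    linarith
  have hT2 := sum_filter_dvd_le (P := primesIoc y R) (w := fun p => 2 * ‖f p - 1‖ ^ 2)
    (fun p => p) (fun p _ => by positivity) x
  have hT3 := sum_filter_dvd_le (P := primesIoc y R) (w := fun _ => (2 : ℝ))
    (fun p => p ^ 2) (fun p _ => by positivity) x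
  have hT4 := sum_filter_dvd_le (P := primesIoc R x) (w := fun p => ‖f p - 1‖)
    (fun p => p) (fun p _ => by positivity) x
  have hb2 : ∑ p ∈ primesIoc y R, 2 * ‖f p - 1‖ ^ 2 / (p : ℝ) ≤ 2 * sqSum f y x := by
    refine le_trans (le_of_eq ?_) (mul_le_mul_of_nonneg_left hD0 two_pos.le)
    rw [sqSum, mul_sum]
    exact sum_congr rfl fun p _ => by ring
  have hb3 : ∑ p ∈ primesIoc y R, (2 : ℝ) / ((p ^ 2 : ℕ) : ℝ) ≤
      2 * ∑ p ∈ primesIoc y x, ((p : ℝ) ^ 2)⁻¹ := by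
    rw [mul_sum]
    refine le_trans (le_of_eq (sum_congr rfl fun p _ => ?_))
      (sum_le_sum_of_subset_of_nonneg hsub fun p _ _ => by positivity)
    push_cast
    ring
  have hb4 : ∑ p ∈ primesIoc R x, ‖f p - 1‖ / (p : ℝ) ≤
      sqSum f y x / (2 * δ) + δ / 2 * C := by
    have hp : ∀ p ∈ primesIoc R x, ‖f p - 1‖ / (p : ℝ) ≤
        ‖f p - 1‖ ^ 2 / p / (2 * δ) + δ / 2 * (p : ℝ)⁻¹ := by
      intro p hp
      have hp0 : (0 : ℝ) < p := Nat.cast_pos.2 (mem_primesIoc.1 hp).1.pos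
      rw [← sub_nonneg]
      refine le_of_le_of_eq (show (0 : ℝ) ≤ (‖f p - 1‖ - δ) ^ 2 / (2 * δ * p) by positivity) ?_
      field_simp
      ring
    refine (sum_le_sum hp).trans ?_
    rw [sum_add_distrib, ← sum_div, ← mul_sum]
    exact add_le_add (div_le_div_of_nonneg_right hD1 (by positivity))
      (mul_le_mul_of_nonneg_left (hC x hx) (by positivity))
  refine (sum_le_sum fun n hn => norm_sub_trunc_mul_exp_le h1 hmul hf (Nat.lt_succ_sqrt x)
    (mem_Icc.1 hn).1 (mem_Icc.1 hn).2 (re_sum_div_nonpos hf _)).trans ?_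
  simp only [sum_add_distrib, ← mul_sum]
  have e2 := hT2.trans (mul_le_mul_of_nonneg_left hb2 hx0)
  have e3 := hT3.trans (mul_le_mul_of_nonneg_left hb3 hx0)
  have e4 := hT4.trans (mul_le_mul_of_nonneg_left hb4 hx0)
  have hC0 : 0 ≤ C := le_trans (sum_nonneg fun p _ => by positivity) (hC x hx)
  have h6 : x * (sqSum f y x / δ) * (11 / 2 : ℝ) ≤ x * (sqSum f y x / δ) * 6 := by
    gcongr
    norm_num
  have h7 : (0 : ℝ) ≤ x * (δ * C) := by positivity
  have k1 : (x : ℝ) * (5 * sqSum f y x / (2 * δ)) = x * (sqSum f y x / δ) * (5 / 2) := by ring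
  have k2 : (x : ℝ) * (sqSum f y x / (2 * δ)) = x * (sqSum f y x / δ) * (1 / 2) := by ring
  have k3 : (x : ℝ) * ((6 / δ + 2) * sqSum f y x) =
      x * (sqSum f y x / δ) * 6 + 2 * (x * sqSum f y x) := by ring
  linarith

/-- The average distance between `f` and its truncation. -/
theorem sum_norm_sub_trunc_le (h1 : f 1 = 1)
    (hmul : ∀ m n : ℕ, m.Coprime n → f (m * n) = f m * f n) (hf : ∀ n, ‖f n‖ ≤ 1) {C : ℝ}
    (hC : ∀ x : ℕ, 4 ≤ x → ∑ p ∈ (primesUpTo x).filter (Nat.sqrt x < ·), (p : ℝ)⁻¹ ≤ C)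
    {δ : ℝ} (hδ : 0 < δ) {y x : ℕ} (hx : 4 ≤ x) (hy : y ≤ Nat.sqrt x) :
    ∑ n ∈ Icc 1 x, ‖f n - trunc f y n‖ ≤
      x * (2 * ‖∑ p ∈ primesIoc y (Nat.sqrt x), (f p - 1) / p‖ + δ * (1 + C) +
        (6 / δ + 2) * sqSum f y x + 2 * ∑ p ∈ primesIoc y x, ((p : ℝ) ^ 2)⁻¹) := by
  have h := sum_norm_sub_trunc_mul_exp_le h1 hmul hf hC hδ hx hy
  set E := ∑ p ∈ primesIoc y (Nat.sqrt x), (f p - 1) / (p : ℂ) with hE
  have hp : ∀ n ∈ Icc 1 x, ‖f n - trunc f y n‖ ≤
      ‖f n - trunc f y n * Complex.exp E‖ + 2 * ‖E‖ := by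
    intro n _
    refine (norm_sub_le_norm_sub_add_norm_sub _ (trunc f y n * Complex.exp E) _).trans
      (add_le_add le_rfl ?_)
    rw [← mul_sub_one, norm_mul]
    exact (mul_le_of_le_one_left (norm_nonneg _) (norm_trunc_le hf y n)).trans
      (norm_exp_sub_one_le_two_mul (re_sum_div_nonpos hf _))
  refine (sum_le_sum hp).trans ?_
  rw [sum_add_distrib, sum_const, Nat.card_Icc, Nat.add_sub_cancel, nsmul_eq_mul]
  linarith

theorem sum_primesIoc_eq_sub {M : Type*} [AddCommGroup M] (F : ℕ → M) {y x : ℕ} (h : y ≤ x) :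
    ∑ p ∈ primesIoc y x, F p = ∑ p ∈ primesUpTo x, F p - ∑ p ∈ primesUpTo y, F p := by
  rw [eq_sub_iff_add_eq, ← sum_filter_add_sum_filter_not (primesUpTo x) (y < ·)]
  refine congrArg₂ (· + ·) rfl (sum_congr ?_ fun _ _ => rfl)
  ext p
  simp only [mem_primesUpTo, mem_filter, not_lt]
  exact ⟨fun h' => ⟨⟨h'.1, h'.2.trans h⟩, h'.2⟩, fun h' => ⟨h'.1.1, h'.2⟩⟩

/-- **Delange's mean value theorem.** -/
theorem exists_tendsto_mean (h1 : f 1 = 1)
    (hmul : ∀ m n : ℕ, m.Coprime n → f (m * n) = f m * f n) (hf : ∀ n, ‖f n‖ ≤ 1)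
    (hconv : ∃ L : ℂ, Tendsto (fun N : ℕ => ∑ p ∈ primesUpTo N, (1 - f p) / p) atTop (𝓝 L)) :
    ∃ M : ℂ, Tendsto (fun N : ℕ => (∑ n ∈ Icc 1 N, f n) / N) atTop (𝓝 M) ∧
      Tendsto (partialProduct f) atTop (𝓝 M) := by
  obtain ⟨C, hC0, hC⟩ := exists_recip_upper_le
  have hsq : Summable fun n : ℕ => ((n : ℝ) ^ 2)⁻¹ := by simp
  have key : ∀ ε > 0, ∀ᶠ y : ℕ in atTop, ∀ᶠ x : ℕ in atTop,
      ‖(∑ n ∈ Icc 1 x, f n) / x - partialProduct f y‖ ≤ ε := by
    intro ε hε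
    set δ := ε / (8 * (1 + C)) with hδdef
    have hδ : 0 < δ := by positivity
    set η := ε / (8 * (6 / δ + 2) + 16) with hηdef
    have hη : 0 < η := by positivity
    obtain ⟨L, hL⟩ := hconv
    have e1 : ∀ᶠ N in atTop, dist (∑ p ∈ primesUpTo N, (1 - f p) / (p : ℂ)) L < η / 2 :=
      Metric.tendsto_nhds.1 hL _ (by positivity)
    have e2 : ∀ᶠ N in atTop, dist (∑ n ∈ range N, ((n : ℝ) ^ 2)⁻¹)
        (∑' n : ℕ, ((n : ℝ) ^ 2)⁻¹) < η / 2 :=
      Metric.tendsto_nhds.1 hsq.hasSum.tendsto_sum_nat _ (by positivity)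
    obtain ⟨y₀, hy₀⟩ := eventually_atTop.1 (e1.and e2)
    filter_upwards [eventually_ge_atTop y₀] with y hy
    filter_upwards [Metric.tendsto_nhds.1 (tendsto_mean_trunc h1 hf y) (ε / 4) (by positivity),
      eventually_ge_atTop (max 4 ((y + 1) * (y + 1)))] with x hmean hx
    have hx4 : 4 ≤ x := le_of_max_le_left hx
    have hyR : y ≤ Nat.sqrt x :=
      Nat.le_sqrt.2 (le_trans (Nat.mul_le_mul y.le_succ y.le_succ) (le_of_max_le_right hx))
    have hyx : y ≤ x := hyR.trans (Nat.sqrt_le_self x)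
    have hS : ∀ z ≥ y, ‖∑ p ∈ primesIoc y z, (f p - 1) / (p : ℂ)‖ ≤ η := by
      intro z hz
      rw [show ∑ p ∈ primesIoc y z, (f p - 1) / (p : ℂ) =
        -∑ p ∈ primesIoc y z, (1 - f p) / (p : ℂ) by
          rw [← sum_neg_distrib]; exact sum_congr rfl fun p _ => by ring, norm_neg,
        sum_primesIoc_eq_sub _ hz, ← dist_eq_norm]
      have h3 := (hy₀ z (hy.trans hz)).1
      have h4 := (hy₀ y hy).1
      linarith [dist_triangle_right (∑ p ∈ primesUpTo z, (1 - f p) / (p : ℂ))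
        (∑ p ∈ primesUpTo y, (1 - f p) / (p : ℂ)) L]
    have hD : sqSum f y x ≤ 2 * η := by
      refine le_trans (sum_le_sum fun p _ => (div_le_div_of_nonneg_right
        (sq_norm_sub_one_le (hf p)) (Nat.cast_nonneg p))) ?_
      have h3 := (abs_le.1 ((Complex.abs_re_le_norm _).trans (hS x hyx))).1
      rw [Complex.re_sum] at h3
      have e : ∀ p : ℕ, ((f p - 1) / (p : ℂ)).re = -((1 - (f p).re) / p) := fun p => by
        rw [Complex.div_natCast_re, Complex.sub_re, Complex.one_re]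
        ring
      simp only [e, sum_neg_distrib] at h3
      calc ∑ p ∈ primesIoc y x, 2 * (1 - (f p).re) / (p : ℝ)
          = 2 * ∑ p ∈ primesIoc y x, (1 - (f p).re) / (p : ℝ) := by
            rw [mul_sum]; exact sum_congr rfl fun p _ => by ring
        _ ≤ _ := by linarith
    have hQ : ∑ p ∈ primesIoc y x, ((p : ℝ) ^ 2)⁻¹ ≤ η := by
      refine le_trans (sum_le_sum_of_subset_of_nonneg (t := Ico (y + 1) (x + 1))
        (fun p hp => ?_) fun p _ _ => by positivity) ?_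
      · rw [mem_primesIoc] at hp
        rw [mem_Ico]
        omega
      · rw [sum_Ico_eq_sub _ (by omega : y + 1 ≤ x + 1)]
        have h3 := (hy₀ (x + 1) (by omega)).2
        have h4 := (hy₀ (y + 1) (by omega)).2
        rw [Real.dist_eq, abs_lt] at h3 h4
        linarith
    have hmainb := sum_norm_sub_trunc_le h1 hmul hf hC hδ hx4 hyR
    have hx0 : (0 : ℝ) < x := by exact_mod_cast (by omega : 0 < x)
    have hsmall : 2 * ‖∑ p ∈ primesIoc y (Nat.sqrt x), (f p - 1) / (p : ℂ)‖ + δ * (1 + C) +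
        (6 / δ + 2) * sqSum f y x + 2 * ∑ p ∈ primesIoc y x, ((p : ℝ) ^ 2)⁻¹ ≤ ε / 2 := by
      have h5 : δ * (1 + C) = ε / 8 := by
        rw [hδdef]
        field_simp
      have h6 : η * (8 * (6 / δ + 2) + 16) = ε := by
        rw [hηdef, div_mul_cancel₀]
        positivity
      have h7 := mul_le_mul_of_nonneg_left hD (show (0 : ℝ) ≤ 6 / δ + 2 by positivity)
      linarith [hS _ hyR]
    have hdiff : ‖(∑ n ∈ Icc 1 x, f n) / (x : ℂ) - (∑ n ∈ Icc 1 x, trunc f y n) / (x : ℂ)‖ ≤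
        ε / 2 := by
      rw [← sub_div, ← sum_sub_distrib, norm_div, Complex.norm_natCast, div_le_iff₀ hx0]
      refine ((norm_sum_le _ _).trans hmainb).trans ?_
      rw [mul_comm (ε / 2)]
      exact mul_le_mul_of_nonneg_left hsmall hx0.le
    rw [dist_eq_norm] at hmean
    have := norm_sub_le_norm_sub_add_norm_sub ((∑ n ∈ Icc 1 x, f n) / (x : ℂ))
      ((∑ n ∈ Icc 1 x, trunc f y n) / (x : ℂ)) (partialProduct f y)
    linarith
  have hcauchy : CauchySeq (partialProduct f) := by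
    refine Metric.cauchySeq_iff'.2 fun ε hε => ?_
    obtain ⟨y₁, hy₁⟩ := eventually_atTop.1 (key (ε / 3) (by positivity))
    refine ⟨y₁, fun y hy => ?_⟩
    obtain ⟨x, hxa, hxb⟩ := ((hy₁ y hy).and (hy₁ y₁ le_rfl)).exists
    rw [← dist_eq_norm] at hxa hxb
    linarith [dist_triangle_left (partialProduct f y) (partialProduct f y₁)
      ((∑ n ∈ Icc 1 x, f n) / (x : ℂ))]
  obtain ⟨M, hM⟩ := cauchySeq_tendsto_of_complete hcauchy
  refine ⟨M, Metric.tendsto_nhds.2 fun ε hε => ?_, hM⟩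
  obtain ⟨y, hy1, hy2⟩ := ((key (ε / 3) (by positivity)).and
    (Metric.tendsto_nhds.1 hM (ε / 3) (by positivity))).exists
  filter_upwards [hy1] with x hx
  rw [← dist_eq_norm] at hx
  linarith [dist_triangle ((∑ n ∈ Icc 1 x, f n) / (x : ℂ)) (partialProduct f y) M]

end FA.Delange
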