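import Fermat.Agent.Delange.Basic
import Mathlib.NumberTheory.ArithmeticFunction.Moebius
import Mathlib.NumberTheory.EulerProduct.Basic
import Mathlib.NumberTheory.LSeries.Convolution
import Mathlib.Analysis.SpecificLimits.Basic
import Mathlib.Analysis.Normed.Group.Tannery

/-!
# The mean value of a multiplicative function supported on finitely many primes

If the prime powers of the primes above `y` are ignored, the mean value is the finite product
`∏_{p ≤ y} (1 - 1/p) ∑ f (p ^ k) / p ^ k`.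
-/

set_option autoImplicit false

noncomputable section

namespace FA.Delange

open Finset Filter Topology ArithmeticFunction
open FA.ErdosKac (primesUpTo mem_primesUpTo)
open scoped ArithmeticFunction.Moebius ArithmeticFunction.zeta

/-- The value of `f` on the `y`-smooth part of `n`. -/
def trunc (f : ℕ → ℂ) (y n : ℕ) : ℂ :=
  n.factorization.prod fun p k => if p ≤ y then f (p ^ k) else 1

/-- The Euler factor `(1 - 1/p) ∑ f (p ^ k) / p ^ k`. -/
def localFactor (f : ℕ → ℂ) (p : ℕ) : ℂ :=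
  (1 - (p : ℂ)⁻¹) * ∑' k : ℕ, f (p ^ k) / (p : ℂ) ^ k

/-- `∏_{p ≤ y}` of the Euler factors. -/
def partialProduct (f : ℕ → ℂ) (y : ℕ) : ℂ := ∏ p ∈ primesUpTo y, localFactor f p

/-- The convolution of the truncation with the Möbius function. -/
def truncDiff (f : ℕ → ℂ) (y : ℕ) : ArithmeticFunction ℂ :=
  toArithmeticFunction (trunc f y) * (μ : ArithmeticFunction ℂ)

variable {f : ℕ → ℂ}

theorem trunc_apply (f : ℕ → ℂ) (y : ℕ) {n : ℕ} (hn : n ≠ 0) :
    toArithmeticFunction (trunc f y) n = trunc f y n :=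
  if_neg hn

theorem isMultiplicative_truncDiff (f : ℕ → ℂ) (y : ℕ) : (truncDiff f y).IsMultiplicative := by
  refine IsMultiplicative.mul ?_ isMultiplicative_moebius.intCast
  rw [IsMultiplicative.iff_ne_zero]
  refine ⟨by rw [trunc_apply f y one_ne_zero]; simp [trunc], fun {m n} hm hn hc => ?_⟩
  rw [trunc_apply f y (mul_ne_zero hm hn), trunc_apply f y hm, trunc_apply f y hn, trunc,
    Nat.factorization_mul_of_coprime hc,
    Finsupp.prod_add_index_of_disjoint (by simpa using hc.disjoint_primeFactors)]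
  rfl

theorem trunc_prime_pow (f : ℕ → ℂ) (y : ℕ) (h1 : f 1 = 1) {p : ℕ} (hp : p.Prime) (k : ℕ) :
    trunc f y (p ^ k) = if p ≤ y then f (p ^ k) else 1 := by
  rcases Nat.eq_zero_or_pos k with rfl | hk
  · simp [trunc, h1]
  · rw [trunc, hp.factorization_pow, Finsupp.prod_single_index]
    simp [h1]

theorem truncDiff_prime_pow (h1 : f 1 = 1) (y : ℕ) {p : ℕ} (hp : p.Prime) (k : ℕ) :
    truncDiff f y (p ^ (k + 1)) = if p ≤ y then f (p ^ (k + 1)) - f (p ^ k) else 0 := by
  rw [truncDiff, mul_comm, mul_apply, Nat.sum_divisorsAntidiagonal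
      (fun i j => (μ : ArithmeticFunction ℂ) i * toArithmeticFunction (trunc f y) j),
    Nat.sum_divisors_prime_pow hp, sum_range_succ', sum_range_succ']
  rw [sum_eq_zero (fun i _ => by
    rw [intCoe_apply, moebius_apply_prime_pow hp (by omega), if_neg (by omega)]
    simp)]
  rw [zero_add, pow_one, pow_zero, Nat.div_one, intCoe_apply, intCoe_apply,
    moebius_apply_prime hp, moebius_apply_one, trunc_apply f y (pow_ne_zero _ hp.ne_zero),
    show p ^ (k + 1) / p = p ^ k by rw [pow_succ, Nat.mul_div_cancel _ hp.pos],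
    trunc_apply f y (pow_ne_zero _ hp.ne_zero), trunc_prime_pow f y h1 hp,
    trunc_prime_pow f y h1 hp]
  push_cast
  split_ifs <;> ring

theorem truncDiff_eq_zero (h1 : f 1 = 1) (y : ℕ) {d p : ℕ} (hd : d ≠ 0) (hp : p.Prime)
    (hpd : p ∣ d) (hpy : y < p) : truncDiff f y d = 0 := by
  rw [(isMultiplicative_truncDiff f y).multiplicative_factorization _ hd, Finsupp.prod]
  refine prod_eq_zero (i := p) (by simpa using ⟨hp, hpd, hd⟩) ?_
  obtain ⟨k, hk⟩ := Nat.exists_eq_succ_of_ne_zero (n := d.factorization p)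
    (hp.factorization_pos_of_dvd hd hpd).ne'
  rw [hk, Nat.succ_eq_add_one, truncDiff_prime_pow h1 y hp, if_neg (by omega)]

theorem summable_local (hf : ∀ n, ‖f n‖ ≤ 1) {p : ℕ} (hp : p.Prime) :
    Summable fun k : ℕ => f (p ^ k) / (p : ℂ) ^ k := by
  refine Summable.of_norm_bounded (g := fun k => ((p : ℝ)⁻¹) ^ k)
    (summable_geometric_of_lt_one (by positivity)
      (inv_lt_one_of_one_lt₀ (by exact_mod_cast hp.one_lt))) fun k => ?_
  rw [norm_div, norm_pow, Complex.norm_natCast, inv_pow, ← one_div]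
  exact div_le_div_of_nonneg_right (hf _) (by positivity)

theorem tsum_truncDiff_prime_pow (h1 : f 1 = 1) (hf : ∀ n, ‖f n‖ ≤ 1) {y p : ℕ} (hp : p.Prime)
    (hpy : p ≤ y) : ∑' k : ℕ, truncDiff f y (p ^ k) / ((p ^ k : ℕ) : ℂ) = localFactor f p := by
  have hs := summable_local hf hp
  have hs1 := (summable_nat_add_iff 1).2 hs
  have hs2 := hs.mul_left ((p : ℂ)⁻¹)
  have he : ∀ k : ℕ, truncDiff f y (p ^ (k + 1)) / ((p ^ (k + 1) : ℕ) : ℂ) =
      f (p ^ (k + 1)) / (p : ℂ) ^ (k + 1) - (p : ℂ)⁻¹ * (f (p ^ k) / (p : ℂ) ^ k) := by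
    intro k
    rw [truncDiff_prime_pow h1 y hp, if_pos hpy]
    push_cast
    rw [pow_succ (p : ℂ) k, sub_div]
    ring
  have hs3 : Summable fun k : ℕ => truncDiff f y (p ^ k) / ((p ^ k : ℕ) : ℂ) :=
    (summable_nat_add_iff 1).1 ((hs1.sub hs2).congr fun k => (he k).symm)
  rw [hs3.tsum_eq_zero_add, tsum_congr he, hs1.tsum_sub hs2, tsum_mul_left, localFactor,
    sub_mul, one_mul, hs.tsum_eq_zero_add]
  simp only [pow_zero, Nat.cast_one, div_one, h1, (isMultiplicative_truncDiff f y).map_one]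
  ring

theorem mem_factored {y d : ℕ} (hd : d ≠ 0) :
    d ∈ Nat.factoredNumbers (primesUpTo y) ↔ ∀ p : ℕ, p.Prime → p ∣ d → p ≤ y := by
  rw [Nat.mem_factoredNumbers]
  simp only [Nat.mem_primeFactorsList hd, mem_primesUpTo]
  exact ⟨fun h p hp hpd => (h.2 p ⟨hp, hpd⟩).2, fun h => ⟨hd, fun p hp => ⟨hp.1, h p hp.1 hp.2⟩⟩⟩

theorem summable_and_tsum_truncDiff (h1 : f 1 = 1) (hf : ∀ n, ‖f n‖ ≤ 1) (y : ℕ) :
    Summable (fun d : ℕ => ‖truncDiff f y d‖ / d) ∧
      ∑' d : ℕ, truncDiff f y d / (d : ℂ) = partialProduct f y := by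
  set g : ℕ → ℂ := fun d => truncDiff f y d / (d : ℂ) with hg
  have hH := isMultiplicative_truncDiff f y
  have g1 : g 1 = 1 := by simp [hg, hH.map_one]
  have gmul : ∀ {m n : ℕ}, m.Coprime n → g (m * n) = g m * g n := fun {m n} hc => by
    simp only [hg, hH.map_mul_of_coprime hc, Nat.cast_mul, mul_div_mul_comm]
  have gsum : ∀ {p : ℕ}, p.Prime → Summable fun k : ℕ => ‖g (p ^ k)‖ := by
    intro p hp
    refine (summable_nat_add_iff 1).1 (Summable.of_nonneg_of_le (fun k => norm_nonneg _)
      (fun k => ?_) ((summable_geometric_of_lt_one (r := (p : ℝ)⁻¹) (by positivity)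
        (inv_lt_one_of_one_lt₀ (by exact_mod_cast hp.one_lt))).mul_left 2))
    simp only [hg, norm_div, norm_pow, Complex.norm_natCast, truncDiff_prime_pow h1 y hp,
      Nat.cast_pow, inv_pow, ← div_eq_mul_inv]
    refine (div_le_div_of_nonneg_right (?_ : _ ≤ (2 : ℝ)) (by positivity)).trans
      (div_le_div_of_nonneg_left two_pos.le (by have := hp.pos; positivity)
        (pow_le_pow_right₀ (show (1 : ℝ) ≤ p by exact_mod_cast hp.one_le) (Nat.le_succ k)))
    split_ifs
    · exact (norm_sub_le _ _).trans (by linarith [hf (p ^ (k + 1)), hf (p ^ k)])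
    · simp
  obtain ⟨ha, hb⟩ := EulerProduct.summable_and_hasSum_factoredNumbers_prod_filter_prime_tsum
    (f := g) g1 gmul gsum (primesUpTo y)
  have hsupp : ∀ d, d ∉ Nat.factoredNumbers (primesUpTo y) → g d = 0 := by
    intro d hd
    rcases eq_or_ne d 0 with rfl | hd0
    · simp [hg]
    · rw [mem_factored hd0] at hd
      push Not at hd
      obtain ⟨p, hp, hpd, hpy⟩ := hd
      simp [hg, truncDiff_eq_zero h1 y hd0 hp hpd hpy]
  have hind : (Nat.factoredNumbers (primesUpTo y)).indicator g = g :=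
    Set.indicator_eq_self.2 fun d hd => by
      by_contra h
      exact hd (hsupp d h)
  constructor
  · have h2 : Summable fun d => ‖g d‖ := by
      have h3 := (summable_subtype_iff_indicator (f := fun m => ‖g m‖)).1 ha
      refine h3.congr fun d => ?_
      conv_rhs => rw [← hind]
      exact (Set.indicator_comp_of_zero (g := fun z : ℂ => ‖z‖) (by simp)).symm ▸ rfl
    simpa [hg] using h2
  · rw [show ∑' d : ℕ, truncDiff f y d / (d : ℂ) = ∑' d, g d from rfl, ← hind,
      ← _root_.tsum_subtype, hb.tsum_eq, partialProduct]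
    rw [filter_true_of_mem fun p hp => (mem_primesUpTo.1 hp).1]
    refine prod_congr rfl fun p hp => ?_
    obtain ⟨h3, h4⟩ := mem_primesUpTo.1 hp
    exact tsum_truncDiff_prime_pow h1 hf h3 h4

/-- The mean value of the truncation. -/
theorem tendsto_mean_trunc (h1 : f 1 = 1) (hf : ∀ n, ‖f n‖ ≤ 1) (y : ℕ) :
    Tendsto (fun N : ℕ => (∑ n ∈ Icc 1 N, trunc f y n) / N) atTop (𝓝 (partialProduct f y)) := by
  obtain ⟨hsum, htot⟩ := summable_and_tsum_truncDiff h1 hf y
  set H := truncDiff f y with hH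
  have hsplit : ∀ N, (∑ n ∈ Icc 1 N, trunc f y n) / N =
      ∑' d : ℕ, H d * ((N / d : ℕ) : ℂ) / N := by
    intro N
    have h := ArithmeticFunction.sum_Ioc_mul_zeta_eq_sum H N
    have e : H * (ζ : ArithmeticFunction ℂ) = toArithmeticFunction (trunc f y) := by
      rw [hH, truncDiff, mul_assoc, coe_moebius_mul_coe_zeta, mul_one]
    rw [e] at h
    simp only [← Icc_add_one_left_eq_Ioc, zero_add] at h
    rw [tsum_eq_sum (s := Icc 1 N), ← sum_div, ← h]
    · refine congrArg (· / (N : ℂ)) (sum_congr rfl fun n hn => ?_)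
      rw [mem_Icc] at hn
      exact (trunc_apply f y (by omega)).symm
    · intro d hd
      rw [mem_Icc, not_and_or, not_le, not_le] at hd
      rcases hd with hd | hd
      · simp [Nat.lt_one_iff.1 hd]
      · simp [Nat.div_eq_of_lt hd]
  simp only [hsplit, ← htot]
  refine tendsto_tsum_of_dominated_convergence hsum (fun d => ?_)
    (Eventually.of_forall fun N d => ?_)
  · rcases Nat.eq_zero_or_pos d with rfl | hd
    · simp
    have hlim : Tendsto (fun N : ℕ => ((N / d : ℕ) : ℝ) / N) atTop (𝓝 (d : ℝ)⁻¹) := by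
      refine tendsto_iff_norm_sub_tendsto_zero.2 (squeeze_zero' (Eventually.of_forall fun N =>
        norm_nonneg _) ?_ tendsto_one_div_atTop_nhds_zero_nat)
      filter_upwards [eventually_ge_atTop 1] with N hN
      have hN0 : (0 : ℝ) < N := by exact_mod_cast hN
      rw [Real.norm_eq_abs, show ((N / d : ℕ) : ℝ) / N - (d : ℝ)⁻¹ =
        (((N / d : ℕ) : ℝ) - N / d) / N by field_simp, abs_div, abs_of_pos hN0]
      exact div_le_div_of_nonneg_right (abs_div_sub_le N d) hN0.le
    have hlimC := ((Complex.continuous_ofReal.tendsto _).comp hlim).const_mul (H d)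
    refine (hlimC.congr fun N => ?_).trans (le_of_eq ?_)
    · simp only [Function.comp_apply, Complex.ofReal_div, Complex.ofReal_natCast]
      ring
    · simp [div_eq_mul_inv]
  · rw [norm_div, norm_mul, Complex.norm_natCast, Complex.norm_natCast]
    rcases Nat.eq_zero_or_pos N with rfl | hN
    · simp only [Nat.cast_zero, div_zero]
      positivity
    rw [div_le_iff₀ (by exact_mod_cast hN), div_mul_eq_mul_div, mul_div_assoc]
    exact mul_le_mul_of_nonneg_left Nat.cast_div_le (norm_nonneg _)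

end FA.Delange
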